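import Mathlib
import Fermat.Prelude.Def_ModularCurve_PeriodHomPair

/-!
# S21, package A3 (helper71): periods of parabolic elements vanish

* `exists_conj_T_zpow`: an element of `SL(2, ℤ)` with `trace ^ 2 = 4` is conjugate (inside
  `SL(2, ℤ)`) to `± T ^ m`.
* `period_eq_zero_of_trace_sq`: the period of an equivariant primitive (with limits at all cusps)
  along such an element of `Γ₀(N)` vanishes.
* `periodMap_mem_parabolicHoms`, `range_periodHomPair_le`.
-/

namespace Fermat.Agent.S21.H71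

open UpperHalfPlane ModularGroup CongruenceSubgroup Filter Topology ModularCurve ModularCurve.Period
open scoped MatrixGroups

/-- A primitive integer vector fixed by an element of `SL(2, ℤ)` of trace `2`. -/
lemma exists_fixed_vector (g : SL(2, ℤ)) (htr : g 0 0 + g 1 1 = 2) :
    ∃ x y : ℤ, IsCoprime x y ∧ g 0 0 * x + g 0 1 * y = x ∧ g 1 0 * x + g 1 1 * y = y := by
  have hdet : g 0 0 * g 1 1 - g 0 1 * g 1 0 = 1 := by
    have := g.det_coe
    rwa [Matrix.det_fin_two] at this
  by_cases hc : g 1 0 = 0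
  · refine ⟨1, 0, isCoprime_one_left, ?_, ?_⟩
    · have h1 : g 0 0 * g 1 1 = 1 := by rw [hc] at hdet; linear_combination hdet
      have h2 : (g 0 0 - 1) ^ 2 = 0 := by linear_combination (-1 : ℤ) * h1 + g 0 0 * htr
      have h3 : g 0 0 = 1 := by
        have := pow_eq_zero_iff (two_ne_zero) |>.mp h2
        linarith
      rw [h3]; ring
    · rw [hc]; ring
  · have hpos : 0 < Int.gcd (g 1 0) (1 - g 1 1) :=
      Int.gcd_pos_of_ne_zero_left _ hc
    obtain ⟨c', e', hcop, hc', he'⟩ := Int.exists_gcd_one hpos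
    set g0 : ℤ := (Int.gcd (g 1 0) (1 - g 1 1) : ℤ) with hg0
    have hg0ne : g0 ≠ 0 := by
      rw [hg0]; exact_mod_cast hpos.ne'
    refine ⟨e', c', ?_, ?_, ?_⟩
    · rw [Int.isCoprime_iff_gcd_eq_one, Int.gcd_comm]; exact hcop
    · have : g0 * (g 0 0 * e' + g 0 1 * c' - e') = 0 := by
        linear_combination (-(g 0 0) + 1) * he' - g 0 1 * hc' - hdet + htr
      rcases mul_eq_zero.mp this with h | h
      · exact absurd h hg0ne
      · linarith
    · linear_combination e' * hc' - c' * he'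

/-- An element of `SL(2, ℤ)` of trace `2` is conjugate to a power of `T`. -/
lemma exists_conj_T_zpow_of_trace_two (g : SL(2, ℤ)) (htr : g 0 0 + g 1 1 = 2) :
    ∃ (δ : SL(2, ℤ)) (m : ℤ), g * δ = δ * T ^ m := by
  obtain ⟨x, y, hcop, hx, hy⟩ := exists_fixed_vector g htr
  obtain ⟨u, v, huv⟩ := hcop
  have hdet : g 0 0 * g 1 1 - g 0 1 * g 1 0 = 1 := by
    have := g.det_coe
    rwa [Matrix.det_fin_two] at this
  set a := g 0 0 with ha
  set b := g 0 1 with hb
  set c := g 1 0 with hc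
  set d := g 1 1 with hd
  set p := -a * v + b * u with hp
  set q := -c * v + d * u with hq
  have h1 : d * x - b * y = x := by linear_combination htr * x - hx
  have h2 : a * y - c * x = y := by linear_combination htr * y - hy
  have h3 : x * q - y * p = 1 := by rw [hp, hq]; linear_combination u * h1 + v * h2 + huv
  have h4 : x * (q - u) = y * (p + v) := by linear_combination h3 - huv
  set m := u * (p + v) + v * (q - u) with hm
  have hmx : m * x = p + v := by rw [hm]; linear_combination (p + v) * huv + v * h4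
  have hmy : m * y = q - u := by rw [hm]; linear_combination (q - u) * huv - u * h4
  obtain ⟨δ, hδ⟩ : ∃ δ : SL(2, ℤ), (δ : Matrix (Fin 2) (Fin 2) ℤ) = !![x, -v; y, u] :=
    ⟨⟨!![x, -v; y, u], by rw [Matrix.det_fin_two_of]; linear_combination huv⟩, rfl⟩
  refine ⟨δ, m, ?_⟩
  apply Subtype.ext
  rw [Matrix.SpecialLinearGroup.coe_mul, Matrix.SpecialLinearGroup.coe_mul,
    ModularGroup.coe_T_zpow, hδ, Matrix.eta_fin_two (g : Matrix (Fin 2) (Fin 2) ℤ)]
  ext i j
  fin_cases i <;> fin_cases j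
  · simp [Matrix.mul_apply, Fin.sum_univ_two]
    linear_combination hx
  · simp [Matrix.mul_apply, Fin.sum_univ_two]
    linear_combination (-1 : ℤ) * hmx
  · simp [Matrix.mul_apply, Fin.sum_univ_two]
    linear_combination hy
  · simp [Matrix.mul_apply, Fin.sum_univ_two]
    linear_combination (-1 : ℤ) * hmy

/-- An element of `SL(2, ℤ)` with `trace ^ 2 = 4` is conjugate to `± T ^ m`. -/
lemma exists_conj_T_zpow (g : SL(2, ℤ))
    (h : (g : Matrix (Fin 2) (Fin 2) ℤ).trace ^ 2 = 4) :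
    ∃ (δ : SL(2, ℤ)) (m : ℤ), g * δ = δ * T ^ m ∨ g * δ = -(δ * T ^ m) := by
  rw [Matrix.trace_fin_two] at h
  have h' : (g 0 0 + g 1 1 - 2) * (g 0 0 + g 1 1 + 2) = 0 := by linear_combination h
  rcases mul_eq_zero.mp h' with h2 | h2
  · obtain ⟨δ, m, hδ⟩ := exists_conj_T_zpow_of_trace_two g (by linarith)
    exact ⟨δ, m, Or.inl hδ⟩
  · obtain ⟨δ, m, hδ⟩ := exists_conj_T_zpow_of_trace_two (-g) (by
      simp only [Matrix.SpecialLinearGroup.coe_neg, Matrix.neg_apply]; linarith)
    refine ⟨δ, m, Or.inr ?_⟩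
    rw [← hδ, neg_mul, neg_neg]

/-- Translation by `T ^ m` preserves the filter `atImInfty`. -/
lemma tendsto_T_zpow_smul (m : ℤ) : Tendsto (fun w : ℍ => T ^ m • w) atImInfty atImInfty := by
  rw [atImInfty, tendsto_comap_iff]
  have : (im ∘ fun w : ℍ => T ^ m • w) = im := by
    funext w
    exact ModularGroup.im_T_zpow_smul w m
  rw [this]
  exact tendsto_comap

/-- If `F ∘ δ` has a limit at `i∞` and `F (γ • z) - F z = c` for all `z`, where
`γ δ = ± δ T ^ m`, then `c = 0`. -/
lemma const_eq_zero_of_conj_T_zpow {F : ℍ → ℂ} {γ δ : SL(2, ℤ)} {m : ℤ} {c L : ℂ}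
    (hγ : γ * δ = δ * T ^ m ∨ γ * δ = -(δ * T ^ m))
    (hc : ∀ z : ℍ, F (γ • z) - F z = c)
    (hL : Tendsto (fun w : ℍ => F (δ • w)) atImInfty (𝓝 L)) : c = 0 := by
  have hact : ∀ w : ℍ, γ • (δ • w) = δ • (T ^ m • w) := by
    intro w
    rw [← mul_smul, ← mul_smul]
    rcases hγ with h | h
    · rw [h]
    · rw [h, ModularGroup.SL_neg_smul]
  have h1 : Tendsto (fun w : ℍ => F (δ • (T ^ m • w))) atImInfty (𝓝 L) :=
    hL.comp (tendsto_T_zpow_smul m)
  have h2 : Tendsto (fun w : ℍ => F (δ • (T ^ m • w)) - F (δ • w)) atImInfty (𝓝 (L - L)) :=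
    h1.sub hL
  have h3 : (fun w : ℍ => F (δ • (T ^ m • w)) - F (δ • w)) = fun _ => c := by
    funext w
    rw [← hact]
    exact hc _
  rw [h3, sub_self] at h2
  exact tendsto_nhds_unique tendsto_const_nhds h2

/-- **A3a.** The period of an equivariant primitive along an element of `Γ₀(N)` with
`trace ^ 2 = 4` vanishes. -/
theorem period_eq_zero_of_trace_sq (N : ℕ) {f : CuspForm (Gamma0 N) 2} {F : ℍ → ℂ}
    (hF : HasEquivariantPrimitive N f F) (γ : Gamma0 N)
    (hγ : ((γ : SL(2, ℤ)) : Matrix (Fin 2) (Fin 2) ℤ).trace ^ 2 = 4) :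
    hF.2.2.1.period γ = 0 := by
  obtain ⟨δ, m, hδ⟩ := exists_conj_T_zpow (γ : SL(2, ℤ)) hγ
  obtain ⟨L, hL⟩ := hF.2.2.2 δ
  exact const_eq_zero_of_conj_T_zpow hδ (fun z => hF.2.2.1.sub_eq_period γ z) hL

/-- **A3b.** The period map takes values in the parabolic homomorphisms. -/
theorem periodMap_mem_parabolicHoms (N : ℕ) (f : CuspForm (Gamma0 N) 2) :
    periodMap N f ∈ parabolicHoms ℂ (Gamma0 N) ℂ := by
  by_cases h : ∃ F : ℍ → ℂ, HasEquivariantPrimitive N f F
  · obtain ⟨F, hF⟩ := h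
    obtain ⟨F₀, h₀, heq⟩ := periodMap_def N f hF
    rw [heq, mem_parabolicHoms_iff]
    intro γ hγ
    exact period_eq_zero_of_trace_sq N h₀ γ hγ
  · have h0 : periodMap N f = 0 := by
      unfold periodMap
      rw [dif_neg h]
    rw [h0]
    exact zero_mem _

/-- **A3c.** The range of `periodHomPair` consists of parabolic homomorphisms. -/
theorem range_periodHomPair_le (N : ℕ) :
    LinearMap.range (periodHomPair N) ≤ parabolicHoms ℂ (Gamma0 N) ℂ := by
  by_cases hlin : ExistsPeriodMapLinear N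
  · obtain ⟨pml, hpml, heq⟩ := periodHomPair_def N hlin
    rw [heq]
    rintro _ ⟨⟨f, g⟩, rfl⟩
    have hf : pml f ∈ parabolicHoms ℂ (Gamma0 N) ℂ := by
      rw [hpml]; exact periodMap_mem_parabolicHoms N f
    have hg : pml g ∈ parabolicHoms ℂ (Gamma0 N) ℂ := by
      rw [hpml]; exact periodMap_mem_parabolicHoms N g
    simp only [LinearMap.coprod_apply, LinearMap.comp_apply, LinearMap.add_apply,
      LinearMap.sub_apply, LinearMap.id_apply]
    exact add_mem (add_mem hf (charInvolution_mem_parabolicHoms N ℂ ℂ hf))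
      (sub_mem hg (charInvolution_mem_parabolicHoms N ℂ ℂ hg))
  · have h0 : periodHomPair N = 0 := by
      unfold periodHomPair
      rw [dif_neg hlin]
    rw [h0]
    simp

end Fermat.Agent.S21.H71
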