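import Mathlib
import Fermat.Prelude.Def_ModularCurve_PeriodHomPair
import Fermat.Agent.S21.H71.Parabolic

/-!
# S21, package A4 (helper71): a maximum principle on `Γ₀(N) \ ℍ*`

`eq_zero_of_re_invariant`: let `G : ℍ → ℂ` be holomorphic with derivative `g`, such that
`G (γ • z) - G z` is a purely imaginary constant for every `γ ∈ Γ₀(N)` and such that `G ∘ δ` has a
limit at `i∞` for every `δ ∈ SL(2, ℤ)`.  Then `g = 0`.
-/

namespace Fermat.Agent.S21.H71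

open UpperHalfPlane ModularGroup CongruenceSubgroup Filter Topology Function
open scoped MatrixGroups Manifold

local notation "𝕢" => Function.Periodic.qParam

/-- The conjugate `δ T^N δ⁻¹` lies in `Γ₀(N)`. -/
lemma conj_T_pow_mem_Gamma0 (N : ℕ) (δ : SL(2, ℤ)) : δ * T ^ (N : ℤ) * δ⁻¹ ∈ Gamma0 N := by
  have h1 : T ^ (N : ℤ) ∈ Gamma N := by
    simpa using ModularGroup_T_pow_mem_Gamma (N : ℤ) (N : ℤ) dvd_rfl
  have h2 := (Gamma_normal (N := N)).conj_mem _ h1 δ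
  exact Gamma0_mem.mpr (Gamma_mem.mp h2).2.2.1

section KeyLemma

variable {N : ℕ} {G : ℍ → ℂ}

lemma apply_smul_T_pow_smul
    (hinv : ∀ γ ∈ Gamma0 N, ∃ c : ℂ, ∀ z : ℍ, G (γ • z) - G z = c)
    (hlim : ∀ δ : SL(2, ℤ), ∃ L : ℂ, Tendsto (fun w : ℍ => G (δ • w)) atImInfty (𝓝 L))
    (δ : SL(2, ℤ)) (w : ℍ) : G (δ • (T ^ (N : ℤ) • w)) = G (δ • w) := by
  obtain ⟨c, hc⟩ := hinv _ (conj_T_pow_mem_Gamma0 N δ)
  obtain ⟨L, hL⟩ := hlim δ
  have hc0 : c = 0 :=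
    const_eq_zero_of_conj_T_zpow (γ := δ * T ^ (N : ℤ) * δ⁻¹) (δ := δ) (m := N)
      (Or.inl (by group)) hc hL
  have h := hc (δ • w)
  rw [hc0, ← mul_smul, show δ * T ^ (N : ℤ) * δ⁻¹ * δ = δ * T ^ (N : ℤ) by group, mul_smul] at h
  exact sub_eq_zero.mp h

lemma periodic_comp_smul
    (hinv : ∀ γ ∈ Gamma0 N, ∃ c : ℂ, ∀ z : ℍ, G (γ • z) - G z = c)
    (hlim : ∀ δ : SL(2, ℤ), ∃ L : ℂ, Tendsto (fun w : ℍ => G (δ • w)) atImInfty (𝓝 L))
    (δ : SL(2, ℤ)) : Periodic ((fun w : ℍ => G (δ • w)) ∘ ofComplex) ((N : ℝ) : ℂ) := by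
  intro z
  by_cases hz : 0 < z.im
  · have hz' : 0 < (z + ((N : ℝ) : ℂ)).im := by simpa using hz
    simp only [Function.comp_apply, ofComplex_apply_of_im_pos hz', ofComplex_apply_of_im_pos hz]
    have : (⟨z + ((N : ℝ) : ℂ), hz'⟩ : ℍ) = T ^ (N : ℤ) • ⟨z, hz⟩ := by
      ext
      rw [ModularGroup.coe_T_zpow_smul_eq]
      simp
    rw [this]
    exact apply_smul_T_pow_smul hinv hlim δ _
  · have hz0 : z.im ≤ 0 := not_lt.mp hz
    have hz' : (z + ((N : ℝ) : ℂ)).im ≤ 0 := by simpa using hz0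
    show G (δ • ofComplex (z + ((N : ℝ) : ℂ))) = G (δ • ofComplex z)
    rw [ofComplex_apply_of_im_nonpos hz', ofComplex_apply_of_im_nonpos hz0]

lemma mdiff_comp_smul (hG : MDiff G) (δ : SL(2, ℤ)) : MDiff (fun w : ℍ => G (δ • w)) := by
  have h : MDiff (fun w : ℍ => (δ : GL (Fin 2) ℝ) • w) :=
    mdifferentiable_smul (by simp)
  exact hG.comp h

lemma isBoundedAtImInfty_comp_smul
    (hlim : ∀ δ : SL(2, ℤ), ∃ L : ℂ, Tendsto (fun w : ℍ => G (δ • w)) atImInfty (𝓝 L))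
    (δ : SL(2, ℤ)) : IsBoundedAtImInfty (fun w : ℍ => G (δ • w)) := by
  obtain ⟨L, hL⟩ := hlim δ
  exact hL.isBigO_one ℝ

/-- The cusp function of `G ∘ δ` (in the parameter `q_N`). -/
noncomputable def cuspFn (N : ℕ) (G : ℍ → ℂ) (δ : SL(2, ℤ)) : ℂ → ℂ :=
  UpperHalfPlane.cuspFunction (N : ℝ) (fun w : ℍ => G (δ • w))

variable [NeZero N]

lemma cuspFn_qParam
    (hinv : ∀ γ ∈ Gamma0 N, ∃ c : ℂ, ∀ z : ℍ, G (γ • z) - G z = c)
    (hlim : ∀ δ : SL(2, ℤ), ∃ L : ℂ, Tendsto (fun w : ℍ => G (δ • w)) atImInfty (𝓝 L))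
    (δ : SL(2, ℤ)) (w : ℍ) : cuspFn N G δ (𝕢 (N : ℝ) w) = G (δ • w) :=
  UpperHalfPlane.eq_cuspFunction w (Nat.cast_ne_zero.mpr (NeZero.ne N))
    (periodic_comp_smul hinv hlim δ)

lemma differentiableOn_cuspFn (hG : MDiff G)
    (hinv : ∀ γ ∈ Gamma0 N, ∃ c : ℂ, ∀ z : ℍ, G (γ • z) - G z = c)
    (hlim : ∀ δ : SL(2, ℤ), ∃ L : ℂ, Tendsto (fun w : ℍ => G (δ • w)) atImInfty (𝓝 L))
    (δ : SL(2, ℤ)) : DifferentiableOn ℂ (cuspFn N G δ) (Metric.ball 0 1) :=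
  UpperHalfPlane.differentiableOn_cuspFunction_ball (Nat.cast_pos.mpr (NeZero.pos N))
    (periodic_comp_smul hinv hlim δ) (mdiff_comp_smul hG δ) (isBoundedAtImInfty_comp_smul hlim δ)

omit [NeZero N] in
/-- Every point of `ℍ` is `Γ₀(N)`-equivalent to `δ_q • w` with `im w ≥ 1/2`, for one of the finitely
many coset representatives `δ_q`. -/
lemma exists_rep
    (hinv : ∀ γ ∈ Gamma0 N, ∃ c : ℂ, c.re = 0 ∧ ∀ z : ℍ, G (γ • z) - G z = c) (z : ℍ) :
    ∃ (q : SL(2, ℤ) ⧸ Gamma0 N) (w : ℍ), 1 / 2 ≤ w.im ∧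
      (G z).re = (G ((Quotient.out q)⁻¹ • w)).re := by
  obtain ⟨g, hg⟩ := ModularGroup.exists_one_half_le_im_smul z
  obtain ⟨h, hh⟩ := QuotientGroup.mk_out_eq_mul (Gamma0 N) g
  refine ⟨(g : SL(2, ℤ) ⧸ Gamma0 N), g • z, hg, ?_⟩
  obtain ⟨c, hc0, hc⟩ := hinv h h.2
  have h1 : z = (h : SL(2, ℤ)) • ((Quotient.out (g : SL(2, ℤ) ⧸ Gamma0 N))⁻¹ • (g • z)) := by
    rw [hh, ← mul_smul, ← mul_smul]
    have : (h : SL(2, ℤ)) * (g * (h : SL(2, ℤ)))⁻¹ * g = 1 := by group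
    rw [this, one_smul]
  have h2 := hc ((Quotient.out (g : SL(2, ℤ) ⧸ Gamma0 N))⁻¹ • (g • z))
  rw [← h1] at h2
  have h3 := congrArg Complex.re h2
  rw [Complex.sub_re, hc0] at h3
  linarith

/-- **Maximum principle on `Γ₀(N) \ ℍ*`.** -/
theorem eq_zero_of_re_invariant (N : ℕ) [NeZero N] {G g : ℍ → ℂ}
    (hG : ∀ τ : ℍ, HasDerivAt (G ∘ ofComplex) (g τ) τ)
    (hinv : ∀ γ ∈ Gamma0 N, ∃ c : ℂ, c.re = 0 ∧ ∀ z : ℍ, G (γ • z) - G z = c)
    (hlim : ∀ δ : SL(2, ℤ), ∃ L : ℂ, Tendsto (fun w : ℍ => G (δ • w)) atImInfty (𝓝 L)) :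
    ∀ τ : ℍ, g τ = 0 := by
  classical
  have hGm : MDiff G := fun τ => mdifferentiableAt_iff.mpr (hG τ).differentiableAt
  have hinv0 : ∀ γ ∈ Gamma0 N, ∃ c : ℂ, ∀ z : ℍ, G (γ • z) - G z = c := fun γ hγ =>
    let ⟨c, _, hc⟩ := hinv γ hγ
    ⟨c, hc⟩
  have hN : (0 : ℝ) < N := Nat.cast_pos.mpr (NeZero.pos N)
  set r : ℝ := Real.exp (-Real.pi / N) with hr
  have hr0 : 0 ≤ r := (Real.exp_pos _).le
  have hr1 : r < 1 := by
    rw [hr, Real.exp_lt_one_iff]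
    exact div_neg_of_neg_of_pos (by linarith [Real.pi_pos]) hN
  -- the finite family of cusp functions
  let A : SL(2, ℤ) ⧸ Gamma0 N → ℂ → ℂ := fun q => cuspFn N G (Quotient.out q)⁻¹
  have hA : ∀ q, DifferentiableOn ℂ (A q) (Metric.ball 0 1) := fun q =>
    differentiableOn_cuspFn hGm hinv0 hlim _
  -- maxima of the real parts on the closed ball of radius `r`
  have hmax : ∀ q, ∃ p ∈ Metric.closedBall (0 : ℂ) r,
      ∀ p' ∈ Metric.closedBall (0 : ℂ) r, (A q p').re ≤ (A q p).re := by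
    intro q
    have hcont : ContinuousOn (fun p => (A q p).re) (Metric.closedBall 0 r) :=
      Complex.continuous_re.comp_continuousOn
        ((hA q).continuousOn.mono (Metric.closedBall_subset_ball hr1))
    obtain ⟨p, hp, hpmax⟩ := (isCompact_closedBall (0 : ℂ) r).exists_isMaxOn
      (Metric.nonempty_closedBall.mpr hr0) hcont
    exact ⟨p, hp, fun p' hp' => hpmax hp'⟩
  choose P hP hPmax using hmax
  obtain ⟨q0, hq0⟩ := Finite.exists_max (fun q : SL(2, ℤ) ⧸ Gamma0 N => (A q (P q)).re)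
  -- the global bound
  have hbound : ∀ z : ℍ, (G z).re ≤ (A q0 (P q0)).re := by
    intro z
    obtain ⟨q, w, hw, hzw⟩ := exists_rep hinv z
    rw [hzw, ← cuspFn_qParam hinv0 hlim (Quotient.out q)⁻¹ w]
    refine le_trans (hPmax q _ ?_) (hq0 q)
    rw [mem_closedBall_zero_iff, Function.Periodic.norm_qParam, hr]
    apply Real.exp_le_exp.mpr
    rw [div_le_div_iff_of_pos_right hN]
    have : (w : ℂ).im = w.im := rfl
    rw [this]
    nlinarith [Real.pi_pos]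
  -- the bound on the unit disc for the best cusp function
  have hne : ∀ p ∈ Metric.ball (0 : ℂ) 1, p ≠ 0 → (A q0 p).re ≤ (A q0 (P q0)).re := by
    intro p hp hp0
    have him := Function.Periodic.im_invQParam_pos_of_norm_lt_one hN (mem_ball_zero_iff.mp hp) hp0
    have h1 := cuspFn_qParam hinv0 hlim (Quotient.out q0)⁻¹ ⟨_, him⟩
    rw [UpperHalfPlane.coe_mk, Function.Periodic.qParam_right_inv hN.ne' hp0] at h1
    show (cuspFn N G (Quotient.out q0)⁻¹ p).re ≤ _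
    rw [h1]
    exact hbound _
  have hball : ∀ p ∈ Metric.ball (0 : ℂ) 1, (A q0 p).re ≤ (A q0 (P q0)).re := by
    intro p hp
    by_cases hp0 : p = 0
    · subst hp0
      have hcont : ContinuousAt (fun p => (A q0 p).re) 0 :=
        Complex.continuous_re.continuousAt.comp
          ((hA q0).differentiableAt (Metric.ball_mem_nhds 0 one_pos)).continuousAt
      have ht : Tendsto (fun p => (A q0 p).re) (𝓝[≠] 0) (𝓝 (A q0 0).re) :=
        hcont.tendsto.mono_left nhdsWithin_le_nhds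
      refine le_of_tendsto ht ?_
      filter_upwards [self_mem_nhdsWithin,
        nhdsWithin_le_nhds (Metric.ball_mem_nhds (0 : ℂ) one_pos)] with p hp0 hp1
      exact hne p hp1 hp0
    · exact hne p hp hp0
  -- maximum modulus principle for `exp ∘ A q0`
  have hE : DifferentiableOn ℂ (fun p => Complex.exp (A q0 p)) (Metric.ball 0 1) := (hA q0).cexp
  have hP0 : P q0 ∈ Metric.ball (0 : ℂ) 1 := Metric.closedBall_subset_ball hr1 (hP q0)
  have hEmax : IsMaxOn (norm ∘ fun p => Complex.exp (A q0 p)) (Metric.ball 0 1) (P q0) := by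
    intro p hp
    simp only [Function.comp_apply, Complex.norm_exp, Set.mem_ofPred_eq]
    exact Real.exp_le_exp.mpr (hball p hp)
  have hEconst := Complex.eq_const_of_exists_max hE hP0 hEmax
  -- hence `exp ∘ G` is constant
  have hexpG : ∀ z : ℍ, Complex.exp (G z) = Complex.exp (A q0 (P q0)) := by
    intro z
    set δ := (Quotient.out q0)⁻¹ with hδ
    have hz : z = δ • (δ⁻¹ • z) := by rw [← mul_smul, mul_inv_cancel, one_smul]
    have hq : 𝕢 (N : ℝ) (δ⁻¹ • z : ℍ) ∈ Metric.ball (0 : ℂ) 1 := by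
      rw [mem_ball_zero_iff]
      exact UpperHalfPlane.norm_qParam_lt_one N (δ⁻¹ • z)
    have h1 := hEconst hq
    simp only [Function.const_apply] at h1
    have h2 := cuspFn_qParam hinv0 hlim δ (δ⁻¹ • z)
    rw [← hz] at h2
    rw [← h2]
    exact h1
  -- differentiate
  intro τ
  have h1 : HasDerivAt (fun z => Complex.exp ((G ∘ ofComplex) z))
      (Complex.exp ((G ∘ ofComplex) τ) * g τ) τ := (hG τ).cexp
  have h2 : (fun _ : ℂ => Complex.exp (A q0 (P q0))) =ᶠ[𝓝 (τ : ℂ)]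
      fun z => Complex.exp ((G ∘ ofComplex) z) := by
    filter_upwards [isOpen_upperHalfPlaneSet.mem_nhds τ.im_pos] with z hz
    simp only [Function.comp_apply]
    exact (hexpG _).symm
  have h3 : HasDerivAt (fun _ : ℂ => Complex.exp (A q0 (P q0))) 0 (τ : ℂ) := hasDerivAt_const _ _
  have h4 := h3.unique (h1.congr_of_eventuallyEq h2)
  exact (mul_eq_zero.mp h4.symm).resolve_left (Complex.exp_ne_zero _)

end KeyLemma

end Fermat.Agent.S21.H71
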