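import Mathlib
import Fermat.Prelude.Def_ModularCurve_PeriodHomPair
import Fermat.Agent.S21.H71.MaxMod

/-!
# S21, package A4 (helper71): injectivity of `periodHomPair`

For an equivariant primitive `F` of a cusp form `f` (with limits at all cusps) we consider
`F z ± conj (F (-conj z))`.  If the period homomorphism `P` of `F` satisfies `P ∘ j = ± P`
(`j` = conjugation by `diag(1, -1)`), these functions have purely imaginary / purely real periods,
so the maximum principle `eq_zero_of_re_invariant` makes them constant; hence `f = 0`.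
-/

namespace Fermat.Agent.S21.H71

open UpperHalfPlane ModularGroup CongruenceSubgroup Filter Topology Function ModularCurve
  ModularCurve.Period
open scoped MatrixGroups Manifold ComplexConjugate

/-- `J • (γ • z) = (j γ j⁻¹) • (J • z)`, where `J z = -conj z`. -/
lemma J_smul_smul (γ : SL(2, ℤ)) (z : ℍ) : J • (γ • z) = jConjSL γ • (J • z) := by
  apply UpperHalfPlane.ext
  rw [coe_J_smul, UpperHalfPlane.coe_specialLinearGroup_apply,
    UpperHalfPlane.coe_specialLinearGroup_apply, coe_J_smul]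
  simp only [jConjSL_coe, jConjMat_apply_zero_zero, jConjMat_apply_zero_one,
    jConjMat_apply_one_zero, jConjMat_apply_one_one, map_div₀, map_add, map_mul, map_neg,
    Complex.conj_ofReal, eq_intCast, Complex.ofReal_neg]
  rw [← neg_div]
  congr 1 <;> ring

lemma tendsto_J_smul : Tendsto (fun w : ℍ => J • w) atImInfty atImInfty := by
  rw [atImInfty, tendsto_comap_iff]
  have : (im ∘ fun w : ℍ => J • w) = im := by
    funext w
    have h := congrArg Complex.im (coe_J_smul w)
    simpa using h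
  rw [this]
  exact tendsto_comap

lemma J_smul_ofComplex {z : ℂ} (hz : 0 < z.im) : J • ofComplex z = ofComplex (-conj z) := by
  have hz' : 0 < (-conj z).im := by simpa using hz
  apply UpperHalfPlane.ext
  rw [coe_J_smul, ofComplex_apply_of_im_pos hz, ofComplex_apply_of_im_pos hz']

/-- The derivative of `z ↦ conj (F (-conj z))`. -/
lemma hasDerivAt_conj_comp_J {F : ℍ → ℂ} {f' : ℂ} (τ : ℍ)
    (h : HasDerivAt (F ∘ ofComplex) f' ((J • τ : ℍ) : ℂ)) :
    HasDerivAt ((fun z : ℍ => conj (F (J • z))) ∘ ofComplex) (-conj f') τ := by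
  have h1 : HasDerivAt ((F ∘ ofComplex) ∘ Neg.neg) (f' * (-1)) (conj (τ : ℂ)) := by
    have hneg : HasDerivAt (Neg.neg : ℂ → ℂ) (-1) (conj (τ : ℂ)) := hasDerivAt_neg _
    have h' : HasDerivAt (F ∘ ofComplex) f' (-(conj (τ : ℂ))) := by rwa [coe_J_smul] at h
    exact h'.comp _ hneg
  have h2 := h1.conj_conj
  rw [Complex.conj_conj] at h2
  refine (h2.congr_of_eventuallyEq ?_).congr_deriv (by simp)
  filter_upwards [isOpen_upperHalfPlaneSet.mem_nhds τ.im_pos] with z hz
  simp only [Function.comp_apply]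
  rw [J_smul_ofComplex hz]

/-- Core of A4: if `u * (P γ + t * conj (P (j γ j⁻¹)))` is purely imaginary for all `γ`, then
`f τ = t * conj (f (-conj τ))`. -/
lemma sub_conj_eq_zero (N : ℕ) [NeZero N] {f F : ℍ → ℂ}
    (hder : ∀ τ : ℍ, HasDerivAt (F ∘ ofComplex) (f τ) τ)
    (hE : IsEquivariantPrimitive (Gamma0 N) F)
    (hlim : ∀ δ : SL(2, ℤ), ∃ L : ℂ, Tendsto (fun w : ℍ => F (δ • w)) atImInfty (𝓝 L))
    (t u : ℂ) (hu : u ≠ 0)
    (hre : ∀ γ : Gamma0 N,
      (u * (hE.period γ + t * conj (hE.period (jConjGamma0 N γ)))).re = 0) :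
    ∀ τ : ℍ, f τ - t * conj (f (J • τ)) = 0 := by
  have key := eq_zero_of_re_invariant N (G := fun z => u * (F z + t * conj (F (J • z))))
    (g := fun τ => u * (f τ + t * (-conj (f (J • τ))))) ?_ ?_ ?_
  · intro τ
    have h := (mul_eq_zero.mp (key τ)).resolve_left hu
    linear_combination h
  · -- derivative
    intro τ
    have h1 := hder τ
    have h2 := hasDerivAt_conj_comp_J τ (hder (J • τ))
    exact (h1.add (h2.const_mul t)).const_mul u
  · -- invariance
    intro γ hγ
    refine ⟨u * (hE.period ⟨γ, hγ⟩ + t * conj (hE.period (jConjGamma0 N ⟨γ, hγ⟩))),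
      hre ⟨γ, hγ⟩, ?_⟩
    intro z
    have e1 := hE.sub_eq_period ⟨γ, hγ⟩ z
    have e2 := hE.sub_eq_period (jConjGamma0 N ⟨γ, hγ⟩) (J • z)
    rw [jConjGamma0_coe] at e2
    show u * (F (γ • z) + t * conj (F (J • (γ • z)))) - u * (F z + t * conj (F (J • z))) = _
    rw [J_smul_smul γ z, ← e1, ← e2, map_sub]
    ring
  · -- limits at the cusps
    intro δ
    obtain ⟨L1, hL1⟩ := hlim δ
    obtain ⟨L2, hL2⟩ := hlim (jConjSL δ)
    refine ⟨u * (L1 + t * conj L2), ?_⟩
    have h2 : Tendsto (fun w : ℍ => F (J • (δ • w))) atImInfty (𝓝 L2) := by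
      refine (hL2.comp tendsto_J_smul).congr (fun w => ?_)
      simp only [Function.comp_apply]
      rw [J_smul_smul]
    have h3 : Tendsto (fun w : ℍ => conj (F (J • (δ • w)))) atImInfty (𝓝 (conj L2)) :=
      (Complex.continuous_conj.tendsto L2).comp h2
    exact (hL1.add (h3.const_mul t)).const_mul u

/-- If the period homomorphism `P` of an equivariant primitive of `f` (with limits at all cusps)
satisfies `P ∘ j = s • P` with `s = ± 1`, then `f = 0`. -/
lemma eq_zero_of_period_conj_aux (N : ℕ) [NeZero N] {f F : ℍ → ℂ}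
    (hder : ∀ τ : ℍ, HasDerivAt (F ∘ ofComplex) (f τ) τ)
    (hE : IsEquivariantPrimitive (Gamma0 N) F)
    (hlim : ∀ δ : SL(2, ℤ), ∃ L : ℂ, Tendsto (fun w : ℍ => F (δ • w)) atImInfty (𝓝 L))
    (s : ℂ) (hs : s = 1 ∨ s = -1)
    (h : ∀ γ : Gamma0 N, hE.period (jConjGamma0 N γ) = s * hE.period γ) (τ : ℍ) :
    f τ = 0 := by
  have hI : Complex.I ≠ 0 := Complex.I_ne_zero
  have hplus : ∀ τ : ℍ, f τ - 1 * conj (f (J • τ)) = 0 := by
    rcases hs with rfl | rfl
    · refine sub_conj_eq_zero N hder hE hlim 1 Complex.I hI (fun γ => ?_)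
      rw [h γ]
      simp
    · refine sub_conj_eq_zero N hder hE hlim 1 1 one_ne_zero (fun γ => ?_)
      rw [h γ]
      simp
  have hminus : ∀ τ : ℍ, f τ - (-1) * conj (f (J • τ)) = 0 := by
    rcases hs with rfl | rfl
    · refine sub_conj_eq_zero N hder hE hlim (-1) 1 one_ne_zero (fun γ => ?_)
      rw [h γ]
      simp
    · refine sub_conj_eq_zero N hder hE hlim (-1) Complex.I hI (fun γ => ?_)
      rw [h γ]
      simp
  have h1 := hplus τ
  have h2 := hminus τ
  have h3 : (2 : ℂ) * f τ = 0 := by linear_combination h1 + h2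
  simpa using h3

/-- **A4, period form.** If the period homomorphism `P` of an equivariant primitive of `f`
satisfies `P ∘ j = s • P` with `s = ± 1`, then `f = 0`. -/
theorem eq_zero_of_period_conj (N : ℕ) [NeZero N] {f : CuspForm (Gamma0 N) 2} {F : ℍ → ℂ}
    (hF : HasEquivariantPrimitive N f F) (s : ℂ) (hs : s = 1 ∨ s = -1)
    (h : ∀ γ : Gamma0 N, hF.2.2.1.period (jConjGamma0 N γ) = s * hF.2.2.1.period γ) :
    f = 0 := by
  ext τ
  exact eq_zero_of_period_conj_aux N hF.1 hF.2.2.1 hF.2.2.2 s hs h τ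

/-- **A4a.** `(1 + ι) (periodMap f) = 0` implies `f = 0`. -/
theorem eq_zero_of_periodMap_add (N : ℕ) [NeZero N] (f : CuspForm (Gamma0 N) 2)
    (hex : ∃ F : ℍ → ℂ, HasEquivariantPrimitive N f F)
    (h : periodMap N f + charInvolution N ℂ ℂ (periodMap N f) = 0) : f = 0 := by
  obtain ⟨F, hF⟩ := hex
  obtain ⟨F₀, h₀, heq⟩ := periodMap_def N f hF
  refine eq_zero_of_period_conj N h₀ (-1) (Or.inr rfl) (fun γ => ?_)
  have h1 := DFunLike.congr_fun h (Additive.ofMul γ)
  rw [heq] at h1
  simp only [AddMonoidHom.add_apply, charInvolution_apply, toMul_ofMul,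
    IsEquivariantPrimitive.periodHom_apply, AddMonoidHom.zero_apply] at h1
  linear_combination h1

/-- **A4a'.** `(1 - ι) (periodMap f) = 0` implies `f = 0`. -/
theorem eq_zero_of_periodMap_sub (N : ℕ) [NeZero N] (f : CuspForm (Gamma0 N) 2)
    (hex : ∃ F : ℍ → ℂ, HasEquivariantPrimitive N f F)
    (h : periodMap N f - charInvolution N ℂ ℂ (periodMap N f) = 0) : f = 0 := by
  obtain ⟨F, hF⟩ := hex
  obtain ⟨F₀, h₀, heq⟩ := periodMap_def N f hF
  refine eq_zero_of_period_conj N h₀ 1 (Or.inl rfl) (fun γ => ?_)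
  have h1 := DFunLike.congr_fun h (Additive.ofMul γ)
  rw [heq] at h1
  simp only [AddMonoidHom.sub_apply, charInvolution_apply, toMul_ofMul,
    IsEquivariantPrimitive.periodHom_apply, AddMonoidHom.zero_apply] at h1
  linear_combination -h1

/-- **A4b.** `periodHomPair N` is injective, provided every cusp form has an equivariant primitive
and the period map is linear. -/
theorem periodHomPair_injective (N : ℕ) [NeZero N]
    (hex : ∀ f : CuspForm (Gamma0 N) 2, ∃ F : ℍ → ℂ, HasEquivariantPrimitive N f F)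
    (hlin : ExistsPeriodMapLinear N) : Function.Injective (periodHomPair N) := by
  obtain ⟨pml, hpml, heq⟩ := periodHomPair_def N hlin
  rw [heq, ← LinearMap.ker_eq_bot, LinearMap.ker_eq_bot']
  rintro ⟨f, g⟩ hfg
  simp only [LinearMap.coprod_apply, LinearMap.comp_apply, LinearMap.add_apply,
    LinearMap.sub_apply, LinearMap.id_apply] at hfg
  have hι := congrArg (charInvolution N ℂ ℂ) hfg
  simp only [map_add, map_sub, map_zero, charInvolution_charInvolution] at hι
  have hf2 : pml f + charInvolution N ℂ ℂ (pml f) = 0 := by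
    refine AddMonoidHom.ext fun γ => ?_
    have e1 := DFunLike.congr_fun hfg γ
    have e2 := DFunLike.congr_fun hι γ
    simp only [AddMonoidHom.add_apply, AddMonoidHom.sub_apply, AddMonoidHom.zero_apply] at e1 e2 ⊢
    linear_combination (1 / 2 : ℂ) * e1 + (1 / 2 : ℂ) * e2
  have hg2 : pml g - charInvolution N ℂ ℂ (pml g) = 0 := by
    refine AddMonoidHom.ext fun γ => ?_
    have e1 := DFunLike.congr_fun hfg γ
    have e2 := DFunLike.congr_fun hι γ
    simp only [AddMonoidHom.add_apply, AddMonoidHom.sub_apply, AddMonoidHom.zero_apply] at e1 e2 ⊢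
    linear_combination (1 / 2 : ℂ) * e1 - (1 / 2 : ℂ) * e2
  have hf := eq_zero_of_periodMap_add N f (hex f) (by rw [← hpml]; exact hf2)
  have hg := eq_zero_of_periodMap_sub N g (hex g) (by rw [← hpml]; exact hg2)
  rw [hf, hg]
  rfl

end Fermat.Agent.S21.H71
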